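import Fermat.Agent.S48.PER1.Coset
import Fermat.Agent.S48.T24.Defs

/-!
# S48 / PER1 : `T24.Gam N` lies between `Γ₁(N)` and `Γ₀(N)`
-/

set_option autoImplicit false

namespace Fermat.Agent.S48.PER1

open CongruenceSubgroup
open scoped MatrixGroups

instance isMid_Gam (N : ℕ) [T24.Cond N] : IsMid N (T24.Gam N) where
  ge1 := by
    intro g hg
    obtain ⟨h0, h1⟩ := W1.mem_Gamma1_iff.1 hg
    refine ⟨h0, Or.inl ?_⟩
    have h2 : ((g 1 1 : ℤ) : ZMod N) = ((1 : ℤ) : ZMod N) := by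
      rw [Int.cast_one]
      exact h1
    rw [ZMod.intCast_eq_intCast_iff_dvd_sub] at h2
    have h3 : ((g 1 1 : ℤ) : ZMod (T24.Cond.D N)) = ((1 : ℤ) : ZMod (T24.Cond.D N)) := by
      rw [ZMod.intCast_eq_intCast_iff_dvd_sub]
      exact (Int.natCast_dvd_natCast.mpr (T24.Cond.dvd (N := N))).trans h2
    rw [h3, Int.cast_one]
  le0 := fun g hg => hg.1

end Fermat.Agent.S48.PER1
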