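import Fermat.Agent.S48.PER1.Ops
import Fermat.Agent.S48.W1.Hecke
import Fermat.Agent.S48.RHO.Defs

/-!
# S48 / PER1 : the record `RHO.FormOps` for `S₂(Γ)`, `Γ₁(N) ≤ Γ ≤ Γ₀(N)`

* `coL N Γ n`  : the `n`-th `q`-coefficient as a linear form on `CuspForm Γ 2`;
* `formOps N Γ ℓ : RHO.FormOps N ℓ (coL N Γ) (formT N Γ) (formD N Γ)`;
* `formT_eq_Tp`, `formD_eq_dia` : comparison with `W1.Tp`, `W1.dia` for `Γ = Γ₁(N)`;
* `exists_of_invariant` : a form on `Γ₁(N)` which is invariant under `Γ` is a form on `Γ`;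
  `resG1` : restriction `S₂(Γ) → S₂(Γ₁(N))`.
-/

set_option autoImplicit false
set_option linter.unusedSectionVars false

namespace Fermat.Agent.S48.PER1

open CongruenceSubgroup Matrix.SpecialLinearGroup ModularForm UpperHalfPlane
open Fermat.Agent.S16 (HIdx)
open Fermat.Agent.S48.W1 (lr punit)
open scoped MatrixGroups Manifold

variable (N : ℕ) [NeZero N] (Γ : Subgroup SL(2, ℤ)) [IsMid N Γ]

theorem one_mem_strictPeriods_mid (N : ℕ) (Γ : Subgroup SL(2, ℤ)) [IsMid N Γ] :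
    (1 : ℝ) ∈ ((Γ : Subgroup SL(2, ℤ)) : Subgroup (GL (Fin 2) ℝ)).strictPeriods := by
  have hT : ModularGroup.T ∈ Γ := by
    apply IsMid.ge1 (N := N)
    rw [Gamma1_mem]
    simp [ModularGroup.T]
  rw [Subgroup.strictPeriods_eq_zmultiples_one_of_T_mem hT]
  exact AddSubgroup.mem_zmultiples (1 : ℝ)

include N in
theorem isNice_mid (f : CuspForm Γ 2) : S23.IsNice ⇑f :=
  S23.isNice_of_modularFormClass (one_mem_strictPeriods_mid N Γ) f

/-- the `n`-th `q`-coefficient as a linear form. -/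
noncomputable def coL (n : ℕ) : CuspForm Γ 2 →ₗ[ℂ] ℂ where
  toFun f := ModularFormClass.qCoeff f n
  map_add' f g := by
    rw [FunLike.coe_add, W1.qCoeff_add (isNice_mid N Γ f) (isNice_mid N Γ g)]
  map_smul' c f := by
    rw [FunLike.coe_smul, W1.qCoeff_smul (isNice_mid N Γ f), RingHom.id_apply, smul_eq_mul]

theorem coL_apply (n : ℕ) (f : CuspForm Γ 2) : coL N Γ n f = ModularFormClass.qCoeff f n := rfl

/-- a form is determined by its `q`-coefficients. -/
theorem eq_of_coL {f g : CuspForm Γ 2} (h : ∀ n, coL N Γ n f = coL N Γ n g) : f = g :=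
  DFunLike.coe_injective (W1.eq_of_qCoeff (isNice_mid N Γ f) (isNice_mid N Γ g) h)

theorem coL_zero (f : CuspForm Γ 2) : coL N Γ 0 f = 0 :=
  CuspFormClass.qExpansion_coeff_zero f one_pos (one_mem_strictPeriods_mid N Γ)

/-- covariance of `T_p` under `Γ₀(N)`. -/
theorem formT_cov {p : ℕ} (hp : p.Prime) (hpN : ¬ p ∣ N) (g : CuspForm Γ 2) (d : (ZMod N)ˣ)
    {γ : SL(2, ℤ)} (hγ : γ ∈ Gamma0 N) (hd : lr N γ = d) :
    (heckeU 2 p ⇑g + ⇑(formD N Γ (punit N p) g) ∣[(2 : ℤ)] heckeDiagMatrix p) ∣[(2 : ℤ)] γ =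
      heckeU 2 p ⇑(formD N Γ d g) +
        ⇑(formD N Γ (punit N p) (formD N Γ d g)) ∣[(2 : ℤ)] heckeDiagMatrix p := by
  have hpu : ((punit N p : (ZMod N)ˣ) : ZMod N) = p := W1.coe_punit (W1.coprime_of_prime hp hpN)
  refine W1.heckeT_cov 2 hp hpN _ _ _ _ γ hγ ?_ ?_ ?_ ?_
  · intro γ' hγ' h
    rw [coe_formD N Γ d g hγ' (h.trans hd)]
  · intro γ' hγ' h
    rw [formD_comm, coe_formD N Γ d _ hγ' (h.trans hd)]
  · intro γ' hγ' h
    rw [← formD_mul,
      coe_formD N Γ (d * punit N p) g hγ' (by rw [h, hd, Units.val_mul, hpu, mul_comm])]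
  · intro γ' hγ' h
    obtain ⟨e, he⟩ := W1.isUnit_lr hγ'
    have h1 : punit N p * e = d := by
      apply Units.ext
      rw [Units.val_mul, hpu, he, h, hd]
    rw [← coe_formD N Γ e _ hγ' he.symm, ← formD_mul, h1]

theorem formD_formT {p : ℕ} (hp : p.Prime) (hpN : ¬ p ∣ N) (d : (ZMod N)ˣ) (g : CuspForm Γ 2) :
    formD N Γ d (formT N Γ p g) = formT N Γ p (formD N Γ d g) := by
  apply DFunLike.coe_injective
  rw [coe_formD N Γ d _ (rep_mem N d) (lr_rep N d), coe_formT' N Γ hp hpN, coe_formT' N Γ hp hpN,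
    formT_cov N Γ hp hpN g d (rep_mem N d) (lr_rep N d)]

theorem coL_formT {p : ℕ} (hp : p.Prime) (hpN : ¬ p ∣ N) (g : CuspForm Γ 2) (n : ℕ) :
    coL N Γ n (formT N Γ p g) = coL N Γ (p * n) g +
      (p : ℂ) * (if p ∣ n then coL N Γ (n / p) (formD N Γ (punit N p) g) else 0) := by
  rw [coL_apply, coe_formT' N Γ hp hpN,
    W1.qCoeff_add (W1.heckeU_isNice (isNice_mid N Γ g) 2 p) (W1.slashD_isNice (isNice_mid N Γ _) 2 p),
    W1.qCoeff_heckeU (isNice_mid N Γ g) 2 hp.ne_zero, W1.qCoeff_slashD (isNice_mid N Γ _) 2 hp.ne_zero,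
    coL_apply, coL_apply, mul_comm n p]
  congr 1
  split_ifs
  · norm_num
  · simp

/-- the formal properties of `q`-coefficients, Hecke operators and diamond operators. -/
theorem formOps (ℓ : ℕ) : RHO.FormOps N ℓ (coL N Γ) (formT N Γ) (formD N Γ) where
  DS_mul u u' h := by rw [formD_mul, formD_comm]
  DS_TS r hr u h := formD_formT N Γ hr.1 (fun h' => hr.2 (h'.mul_right ℓ)) u h
  co_TS r hr u hu h n := by
    have hrN : ¬ r ∣ N := fun h' => hr.2 (h'.mul_right ℓ)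
    have hu' : u = punit N r := by
      apply Units.ext
      rw [hu, W1.coe_punit (W1.coprime_of_prime hr.1 hrN)]
    rw [hu', coL_formT N Γ hr.1 hrN]

/-! ### comparison with `W1` -/

theorem formD_eq_dia (d : (ZMod N)ˣ) : formD N (Gamma1 N) d = W1.dia N 2 d := by
  ext1 f
  apply DFunLike.coe_injective
  rw [coe_formD N (Gamma1 N) d f (rep_mem N d) (lr_rep N d),
    W1.dia_spec d f (rep_mem N d) (lr_rep N d)]

theorem formT_eq_Tp (p : ℕ) : formT N (Gamma1 N) p = W1.Tp N 2 p := by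
  by_cases h : p.Prime ∧ ¬ p ∣ N
  · ext1 f
    apply DFunLike.coe_injective
    rw [coe_formT' N (Gamma1 N) h.1 h.2, W1.coe_Tp h.1 h.2, formD_eq_dia]
  · rw [formT_of_not N (Gamma1 N) h, W1.Tp, dif_neg h]

/-! ### change of group -/

/-- a form on `Γ₁(N)` which is invariant under `Γ` is a form on `Γ`. -/
theorem exists_of_invariant (f : CuspForm (Gamma1 N) 2)
    (hf : ∀ γ ∈ Γ, ⇑f ∣[(2 : ℤ)] γ = ⇑f) : ∃ g : CuspForm Γ 2, ⇑g = ⇑f := by
  have := finiteIndex_of_isMid N Γ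
  refine ops_exists_cuspForm _ f.holo' hf ?_
  intro c hc
  rw [Subgroup.IsArithmetic.isCusp_iff_isCusp_SL2Z] at hc
  rw [OnePoint.isZeroAt_iff_forall_SL2Z hc]
  intro γ _
  exact CuspFormClass.zero_at_infty_slash f γ

theorem exists_resG1 (f : CuspForm Γ 2) : ∃ g : CuspForm (Gamma1 N) 2, ⇑g = ⇑f := by
  have := finiteIndex_of_isMid N Γ
  refine ops_exists_cuspForm _ f.holo' (fun γ hγ => ops_slash_eq f (IsMid.ge1 (N := N) hγ)) ?_
  intro c hc
  rw [Subgroup.IsArithmetic.isCusp_iff_isCusp_SL2Z] at hc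
  rw [OnePoint.isZeroAt_iff_forall_SL2Z hc]
  intro γ _
  exact CuspFormClass.zero_at_infty_slash f γ

/-- restriction `S₂(Γ) → S₂(Γ₁(N))`. -/
noncomputable def resG1 : CuspForm Γ 2 →ₗ[ℂ] CuspForm (Gamma1 N) 2 where
  toFun f := (exists_resG1 N Γ f).choose
  map_add' f g := by
    apply DFunLike.coe_injective
    rw [(exists_resG1 N Γ (f + g)).choose_spec, FunLike.coe_add, FunLike.coe_add,
      (exists_resG1 N Γ f).choose_spec, (exists_resG1 N Γ g).choose_spec]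
  map_smul' c f := by
    apply DFunLike.coe_injective
    rw [RingHom.id_apply, (exists_resG1 N Γ (c • f)).choose_spec, FunLike.coe_smul,
      FunLike.coe_smul, (exists_resG1 N Γ f).choose_spec]

theorem coe_resG1 (f : CuspForm Γ 2) : ⇑(resG1 N Γ f) = ⇑f := (exists_resG1 N Γ f).choose_spec

theorem resG1_injective : Function.Injective (resG1 N Γ) := by
  intro f g h
  apply DFunLike.coe_injective
  rw [← coe_resG1 N Γ f, ← coe_resG1 N Γ g, h]

theorem resG1_formD (d : (ZMod N)ˣ) (f : CuspForm Γ 2) :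
    resG1 N Γ (formD N Γ d f) = W1.dia N 2 d (resG1 N Γ f) := by
  apply DFunLike.coe_injective
  rw [coe_resG1, coe_formD N Γ d f (rep_mem N d) (lr_rep N d),
    W1.dia_spec d _ (rep_mem N d) (lr_rep N d), coe_resG1]

theorem resG1_formT (p : ℕ) (f : CuspForm Γ 2) :
    resG1 N Γ (formT N Γ p f) = W1.Tp N 2 p (resG1 N Γ f) := by
  by_cases h : p.Prime ∧ ¬ p ∣ N
  · apply DFunLike.coe_injective
    rw [coe_resG1, coe_formT' N Γ h.1 h.2, W1.coe_Tp h.1 h.2, ← resG1_formD, coe_resG1, coe_resG1]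
  · rw [formT_of_not N Γ h, W1.Tp, dif_neg h]
    simp

include N in
theorem finiteDimensional_mid : FiniteDimensional ℂ (CuspForm Γ 2) :=
  have := W1.finiteDimensional N 2
  FiniteDimensional.of_injective (resG1 N Γ) (resG1_injective N Γ)

end Fermat.Agent.S48.PER1
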