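import Fermat.Agent.S48.PER1.Coset
import Fermat.Prelude.Thm_CuspFormClass_isZeroAt_heckeT
import Fermat.Prelude.Thm_CuspFormClass_isZeroAt_heckeU

/-!
# S48 / PER1 : Hecke and diamond operators on `S₂(Γ)`, `Γ₁(N) ≤ Γ ≤ Γ₀(N)`

* `formD N Γ d f = f ∣[2] δ` for every `δ ∈ Γ₀(N)` with lower right entry `≡ d`;
* `formT N Γ ℓ f = ∑ x : HIdx N ℓ, f ∣[2] hRep N ℓ x` (`ℓ ∤ N` prime; `0` otherwise).
-/

set_option autoImplicit false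
set_option linter.unusedSectionVars false

namespace Fermat.Agent.S48.PER1

open CongruenceSubgroup Matrix.SpecialLinearGroup ModularForm UpperHalfPlane
open Fermat.Agent.S16 (HIdx)
open Fermat.Agent.S48.W1 (lr punit)
open scoped MatrixGroups Manifold

variable (N : ℕ) [NeZero N] (Γ : Subgroup SL(2, ℤ)) [IsMid N Γ]

theorem ops_slash_eq {Γ : Subgroup SL(2, ℤ)} (f : CuspForm Γ 2) {γ : SL(2, ℤ)} (hγ : γ ∈ Γ) :
    ⇑f ∣[(2 : ℤ)] γ = ⇑f :=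
  SlashInvariantFormClass.slash_action_eq f _ (Subgroup.mem_map_of_mem _ hγ)

/-- Build a cusp form on `Γ` from analytic data. -/
theorem ops_exists_cuspForm {Γ : Subgroup SL(2, ℤ)} (F : ℍ → ℂ) (hF : MDiff F)
    (hinv : ∀ γ ∈ Γ, F ∣[(2 : ℤ)] γ = F)
    (hzero : ∀ {c : OnePoint ℝ},
      IsCusp c ((Γ : Subgroup SL(2, ℤ)) : Subgroup (GL (Fin 2) ℝ)) → c.IsZeroAt F 2) :
    ∃ g : CuspForm Γ 2, ⇑g = F := by
  refine ⟨{ toFun := F, slash_action_eq' := ?_, holo' := hF, zero_at_cusps' := hzero }, rfl⟩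
  rintro _ ⟨γ, hγ, rfl⟩
  exact hinv γ hγ

theorem ops_exists_slash (f : CuspForm Γ 2) {δ : SL(2, ℤ)} (hδ : δ ∈ Gamma0 N) :
    ∃ h : CuspForm Γ 2, ⇑h = ⇑f ∣[(2 : ℤ)] δ := by
  have := finiteIndex_of_isMid N Γ
  refine ops_exists_cuspForm _ ?_ ?_ ?_
  · exact (f.holo').slash 2 _
  · intro γ hγ
    rw [← SlashAction.slash_mul]
    have h1 : δ * γ = (δ * γ * δ⁻¹) * δ := by group
    rw [h1, SlashAction.slash_mul, ops_slash_eq f (conj_mem N Γ hδ hγ)]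
  · intro c hc
    rw [Subgroup.IsArithmetic.isCusp_iff_isCusp_SL2Z] at hc
    rw [OnePoint.isZeroAt_iff_forall_SL2Z hc]
    intro γ _
    rw [← SlashAction.slash_mul]
    exact CuspFormClass.zero_at_infty_slash f _

theorem ops_slash_eq_of_lr (f : CuspForm Γ 2) {γ γ₀ : SL(2, ℤ)} (hγ : γ ∈ Gamma0 N)
    (h₀ : γ₀ ∈ Gamma0 N) (h : lr N γ = lr N γ₀) : ⇑f ∣[(2 : ℤ)] γ = ⇑f ∣[(2 : ℤ)] γ₀ := by
  have h1 : γ = (γ * γ₀⁻¹) * γ₀ := by group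
  conv_lhs => rw [h1]
  rw [SlashAction.slash_mul,
    ops_slash_eq f (IsMid.ge1 (N := N) (Γ := Γ) (W1.mul_inv_mem_Gamma1 hγ h₀ h))]

theorem exists_formD (d : (ZMod N)ˣ) :
    ∃ T : Module.End ℂ (CuspForm Γ 2), ∀ (f : CuspForm Γ 2) (δ : SL(2, ℤ)), δ ∈ Gamma0 N →
      lr N δ = d → ⇑(T f) = ⇑f ∣[(2 : ℤ)] δ := by
  choose T hT using fun f : CuspForm Γ 2 => ops_exists_slash N Γ f (rep_mem N d)
  refine ⟨{ toFun := T, map_add' := ?_, map_smul' := ?_ }, ?_⟩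
  · intro g g'
    apply DFunLike.coe_injective
    rw [FunLike.coe_add, hT, hT, hT, FunLike.coe_add, SlashAction.add_slash]
  · intro c g
    apply DFunLike.coe_injective
    rw [RingHom.id_apply, FunLike.coe_smul, hT, hT, FunLike.coe_smul, SL_smul_slash]
  · intro g γ hγ h
    show ⇑(T g) = _
    rw [hT]
    exact (ops_slash_eq_of_lr N Γ g hγ (rep_mem N d) (h.trans (lr_rep N d).symm)).symm

/-- the diamond operator `⟨d⟩` on `S₂(Γ)`. -/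
noncomputable def formD (d : (ZMod N)ˣ) : Module.End ℂ (CuspForm Γ 2) :=
  (exists_formD N Γ d).choose

theorem coe_formD (d : (ZMod N)ˣ) (f : CuspForm Γ 2) {δ : SL(2, ℤ)} (hδ : δ ∈ Gamma0 N)
    (hd : lr N δ = d) : ⇑(formD N Γ d f) = ⇑f ∣[(2 : ℤ)] δ :=
  (exists_formD N Γ d).choose_spec f δ hδ hd

theorem formD_one (f : CuspForm Γ 2) : formD N Γ 1 f = f := by
  apply DFunLike.coe_injective
  rw [coe_formD N Γ 1 f (Subgroup.one_mem _) (by rw [W1.lr_one, Units.val_one]),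
    SlashAction.slash_one]

theorem formD_mul (d e : (ZMod N)ˣ) (f : CuspForm Γ 2) :
    formD N Γ (d * e) f = formD N Γ e (formD N Γ d f) := by
  apply DFunLike.coe_injective
  rw [coe_formD N Γ (d * e) f ((Gamma0 N).mul_mem (rep_mem N d) (rep_mem N e))
      (by rw [W1.lr_mul (rep_mem N d), lr_rep, lr_rep, Units.val_mul]),
    coe_formD N Γ e _ (rep_mem N e) (lr_rep N e), coe_formD N Γ d f (rep_mem N d) (lr_rep N d),
    SlashAction.slash_mul]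

theorem formD_comm (d e : (ZMod N)ˣ) (f : CuspForm Γ 2) :
    formD N Γ d (formD N Γ e f) = formD N Γ e (formD N Γ d f) := by
  rw [← formD_mul, ← formD_mul, mul_comm]

/-! ### the Hecke operator -/

theorem ops_isZeroAt_neg {c : OnePoint ℝ} {F : ℍ → ℂ} {k : ℤ} (h : c.IsZeroAt F k) :
    c.IsZeroAt (-F) k := by
  intro g hg
  rw [SlashAction.neg_slash]
  exact Filter.ZeroAtFilter.neg (h g hg)

/-- the sum over the Hecke representatives in terms of the Prelude operators. -/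
theorem sum_hRep_eq {ℓ : ℕ} (hℓN : ¬ ℓ ∣ N) (f : CuspForm Γ 2) :
    ∑ x : HIdx N ℓ, ⇑f ∣[(2 : ℤ)] hRep N ℓ x.1 =
      heckeU 2 ℓ ⇑f + ⇑(formD N Γ (punit N ℓ) f) ∣[(2 : ℤ)] heckeDiagMatrix ℓ := by
  rw [S16.sum_HIdx_of_not_dvd hℓN (fun x => ⇑f ∣[(2 : ℤ)] hRep N ℓ x), heckeU_def,
    Finset.sum_range, hRep_none, SlashAction.slash_mul,
    coe_formD N Γ (punit N ℓ) f (sig_mem N ℓ) (lr_rep N _)]
  simp only [hRep_some]
  rfl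

theorem exists_formT {ℓ : ℕ} (hℓ : ℓ.Prime) (hℓN : ¬ ℓ ∣ N) :
    ∃ T : Module.End ℂ (CuspForm Γ 2), ∀ f : CuspForm Γ 2,
      ⇑(T f) = ∑ x : HIdx N ℓ, ⇑f ∣[(2 : ℤ)] hRep N ℓ x.1 := by
  have := finiteIndex_of_isMid N Γ
  have key : ∀ f : CuspForm Γ 2, ∃ h : CuspForm Γ 2,
      ⇑h = ∑ x : HIdx N ℓ, ⇑f ∣[(2 : ℤ)] hRep N ℓ x.1 := by
    intro f
    refine ops_exists_cuspForm _ ?_ ?_ ?_
    · exact MDifferentiable.sum fun x _ => (f.holo').slash 2 _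
    · intro γ hγ
      have h1 : ∀ x : HIdx N ℓ, (⇑f ∣[(2 : ℤ)] hRep N ℓ x.1) ∣[(2 : ℤ)] (mapGL ℝ γ) =
          ⇑f ∣[(2 : ℤ)] hRep N ℓ (hσ N Γ hℓ ⟨γ, hγ⟩ x).1 := by
        intro x
        have h2 : ⇑f ∣[(2 : ℤ)] (mapGL ℝ (hκ N Γ hℓ ⟨γ, hγ⟩ x : SL(2, ℤ))) = ⇑f :=
          ops_slash_eq f (hκ N Γ hℓ ⟨γ, hγ⟩ x).2
        rw [← SlashAction.slash_mul, hRep_mul N Γ hℓ ⟨γ, hγ⟩ x, SlashAction.slash_mul, h2]
      have h3 : (∑ x : HIdx N ℓ, ⇑f ∣[(2 : ℤ)] hRep N ℓ x.1) ∣[(2 : ℤ)] γ =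
          ∑ x : HIdx N ℓ, (⇑f ∣[(2 : ℤ)] hRep N ℓ x.1) ∣[(2 : ℤ)] (mapGL ℝ γ) :=
        SlashAction.sum_slash _ _
      rw [h3, Finset.sum_congr rfl fun x _ => h1 x]
      exact Equiv.sum_comp (hσ N Γ hℓ ⟨γ, hγ⟩) (fun x => ⇑f ∣[(2 : ℤ)] hRep N ℓ x.1)
    · intro c hc
      rw [sum_hRep_eq N Γ hℓN]
      have e : ⇑(formD N Γ (punit N ℓ) f) ∣[(2 : ℤ)] heckeDiagMatrix ℓ =
          heckeT 2 ℓ ⇑(formD N Γ (punit N ℓ) f) + -heckeU 2 ℓ ⇑(formD N Γ (punit N ℓ) f) := by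
        rw [heckeT_eq_heckeU_add]
        abel
      rw [e]
      exact (CuspFormClass.isZeroAt_heckeU f ℓ hc).add
        ((CuspFormClass.isZeroAt_heckeT _ ℓ hc).add
          (ops_isZeroAt_neg (CuspFormClass.isZeroAt_heckeU _ ℓ hc)))
  choose T hT using key
  refine ⟨{ toFun := T, map_add' := ?_, map_smul' := ?_ }, hT⟩
  · intro g g'
    apply DFunLike.coe_injective
    rw [FunLike.coe_add, hT, hT, hT, FunLike.coe_add, ← Finset.sum_add_distrib]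
    refine Finset.sum_congr rfl fun x _ => ?_
    rw [SlashAction.add_slash]
  · intro c g
    apply DFunLike.coe_injective
    rw [RingHom.id_apply, FunLike.coe_smul, hT, hT, FunLike.coe_smul, Finset.smul_sum]
    refine Finset.sum_congr rfl fun x _ => ?_
    rw [ModularForm.smul_slash, UpperHalfPlane.σ, if_pos (det_hRep_pos N ℓ x.1)]
    rfl

open Classical in
/-- the Hecke operator `T_ℓ` on `S₂(Γ)` (junk value `0` unless `ℓ` is a prime not dividing `N`). -/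
noncomputable def formT (ℓ : ℕ) : Module.End ℂ (CuspForm Γ 2) :=
  if h : ℓ.Prime ∧ ¬ ℓ ∣ N then (exists_formT N Γ h.1 h.2).choose else 0

theorem coe_formT {ℓ : ℕ} (hℓ : ℓ.Prime) (hℓN : ¬ ℓ ∣ N) (f : CuspForm Γ 2) :
    ⇑(formT N Γ ℓ f) = ∑ x : HIdx N ℓ, ⇑f ∣[(2 : ℤ)] hRep N ℓ x.1 := by
  rw [formT, dif_pos ⟨hℓ, hℓN⟩]
  exact (exists_formT N Γ hℓ hℓN).choose_spec f

theorem formT_of_not {ℓ : ℕ} (h : ¬ (ℓ.Prime ∧ ¬ ℓ ∣ N)) : formT N Γ ℓ = 0 := by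
  rw [formT, dif_neg h]

/-- `T_ℓ f = U_ℓ f + (⟨ℓ⟩ f) ∣ diag(ℓ, 1)`. -/
theorem coe_formT' {ℓ : ℕ} (hℓ : ℓ.Prime) (hℓN : ¬ ℓ ∣ N) (f : CuspForm Γ 2) :
    ⇑(formT N Γ ℓ f) =
      heckeU 2 ℓ ⇑f + ⇑(formD N Γ (punit N ℓ) f) ∣[(2 : ℤ)] heckeDiagMatrix ℓ := by
  rw [coe_formT N Γ hℓ hℓN, sum_hRep_eq N Γ hℓN]

end Fermat.Agent.S48.PER1
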