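import Fermat.Agent.S48.PER1.Link
import Fermat.Agent.S48.PER1.Ops

/-!
# S48 / PER1 : the deliverable of the chapter

`lat_link` : every relation between the Hecke operators `latT N Γ ℓ` and the diamond operators `latD N Γ d` on the lattice
`Lat Γ = Hom_par(Γ, ℤ)` holds between `formT N Γ ℓ`, `formD N Γ d` on `CuspForm Γ 2` (`Γ₁(N) ≤ Γ ≤ Γ₀(N)`).
This is the field `link` of `RHO.Kummer1 N ℓ (formT N Γ) (formD N Γ)` with `H = Lat Γ`, `T = latT N Γ`, `D = latD N Γ`.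
-/

set_option autoImplicit false

namespace Fermat.Agent.S48.PER1

open scoped MatrixGroups

theorem lat_link (N : ℕ) [NeZero N] (Γ : Subgroup SL(2, ℤ)) [IsMid N Γ]
    (P : FreeAlgebra ℤ (ℕ ⊕ (ZMod N)ˣ))
    (hP : FreeAlgebra.lift ℤ (Sum.elim (latT N Γ) (latD N Γ)) P = 0) :
    FreeAlgebra.lift ℤ (Sum.elim (formT N Γ) (formD N Γ)) P = 0 :=
  have := finiteIndex_of_isMid N Γ
  lat_link_of N Γ (formT N Γ) (formD N Γ) (fun _ hℓ hℓN f => coe_formT N Γ hℓ hℓN f)
    (fun _ h => formT_of_not N Γ h) (fun d f => coe_formD N Γ d f (rep_mem N d) (lr_rep N d)) P hP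

end Fermat.Agent.S48.PER1
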