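import Fermat.Agent.S48.PER1.Coset
import Fermat.Agent.S31.Lattice

/-!
# S48 / PER1 : the lattice `Hom_par(Γ, ℤ)` with its Hecke and diamond operators

Twin of the first half of `S31/Lattice.lean`, for a group `Γ₁(N) ≤ Γ ≤ Γ₀(N)`.

* `Lat Γ = parabolicHoms ℤ Γ ℤ` (free of finite rank);
* `latT N Γ ℓ : Module.End ℤ (Lat Γ)` (`0` unless `ℓ ∤ N` is prime), `latT_apply`;
* `latD N Γ d : Module.End ℤ (Lat Γ)` (`d : (ZMod N)ˣ`), `latD_apply` (any `δ ∈ Γ₀(N)` with lower right entry `d`).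
-/

set_option autoImplicit false
set_option linter.unusedSectionVars false

namespace Fermat.Agent.S48.PER1

open CongruenceSubgroup Matrix.SpecialLinearGroup ModularForm ModularCurve ModularCurve.Period
open Fermat.Agent.S16 (HIdx)
open Fermat.Agent.S48.W1 (lr punit)
open scoped MatrixGroups

variable (N : ℕ) [NeZero N] (Γ : Subgroup SL(2, ℤ)) [IsMid N Γ]

/-- the Hecke operator on homomorphisms `Γ → A`. -/
noncomputable def heckeHom {ℓ : ℕ} (hℓ : ℓ.Prime) {A : Type} [AddCommGroup A]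
    (φ : Additive Γ →+ A) : Additive Γ →+ A :=
  AddMonoidHom.mk' (fun γ => heckeFun N Γ hℓ (fun δ => φ (Additive.ofMul δ)) (Additive.toMul γ)) (by
    intro γ δ
    simp only [heckeFun, toMul_add]
    have : ∀ x, φ (Additive.ofMul (hκ N Γ hℓ (Additive.toMul γ * Additive.toMul δ) x)) =
        φ (Additive.ofMul (hκ N Γ hℓ (Additive.toMul γ) x)) +
          φ (Additive.ofMul (hκ N Γ hℓ (Additive.toMul δ) (hσ N Γ hℓ (Additive.toMul γ) x))) := by
      intro x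
      rw [(hecke_cocycle N Γ hℓ _ _ x).2, ofMul_mul, map_add]
    simp only [this, Finset.sum_add_distrib]
    congr 1
    exact Equiv.sum_comp (hσ N Γ hℓ (Additive.toMul γ))
      (fun y => φ (Additive.ofMul (hκ N Γ hℓ (Additive.toMul δ) y))))

theorem heckeHom_apply {ℓ : ℕ} (hℓ : ℓ.Prime) {A : Type} [AddCommGroup A]
    (φ : Additive Γ →+ A) (γ : Γ) :
    heckeHom N Γ hℓ φ (Additive.ofMul γ) = heckeFun N Γ hℓ (fun δ => φ (Additive.ofMul δ)) γ := rfl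

theorem heckeHom_isParabolic {ℓ : ℕ} (hℓ : ℓ.Prime) {A : Type} [AddCommGroup A]
    [IsAddTorsionFree A] (φ : Additive Γ →+ A) (hφ : IsParabolicHom Γ φ) :
    IsParabolicHom Γ (heckeHom N Γ hℓ φ) := by
  intro γ hγ
  obtain ⟨r, hr⟩ : ∃ r : ℕ, (hσ N Γ hℓ γ) ^ (r + 1) = 1 := by
    have hpos : 0 < orderOf (hσ N Γ hℓ γ) := orderOf_pos _
    refine ⟨orderOf (hσ N Γ hℓ γ) - 1, ?_⟩
    rw [Nat.sub_add_cancel hpos, pow_orderOf_eq_one]
  have h1 : heckeHom N Γ hℓ φ (Additive.ofMul (γ ^ (r + 1))) = 0 := by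
    rw [heckeHom_apply]
    refine Finset.sum_eq_zero fun x _ => ?_
    apply hφ
    have h2 := hRep_mul N Γ hℓ (γ ^ (r + 1)) x
    rw [hσ_pow, hr, Equiv.Perm.one_apply] at h2
    rw [S31.trace_eq_of_conj _ _ _ h2, Subgroup.coe_pow]
    exact S31.trace_pow_sq _ hγ _
  rw [ofMul_pow, map_nsmul] at h1
  exact (nsmul_eq_zero_iff_right (Nat.succ_ne_zero r)).mp h1

/-- the diamond operator on homomorphisms `Γ → A`: `φ ↦ φ ∘ (γ ↦ δ γ δ⁻¹)`. -/
def diaHom (δ : Gamma0 N) {A : Type} [AddCommGroup A] (φ : Additive Γ →+ A) : Additive Γ →+ A :=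
  φ.comp (MonoidHom.toAdditive (cj N Γ δ))

theorem diaHom_apply (δ : Gamma0 N) {A : Type} [AddCommGroup A] (φ : Additive Γ →+ A) (γ : Γ) :
    diaHom N Γ δ φ (Additive.ofMul γ) = φ (Additive.ofMul (cj N Γ δ γ)) := rfl

theorem diaHom_isParabolic (δ : Gamma0 N) {A : Type} [AddCommGroup A] (φ : Additive Γ →+ A)
    (hφ : IsParabolicHom Γ φ) : IsParabolicHom Γ (diaHom N Γ δ φ) := by
  intro γ hγ
  rw [diaHom_apply]
  apply hφ
  have h : ((cj N Γ δ γ : Γ) : SL(2, ℤ)) = (δ : SL(2, ℤ)) * γ * (δ : SL(2, ℤ))⁻¹ := rfl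
  have h2 : (((δ : SL(2, ℤ)) * γ * (δ : SL(2, ℤ))⁻¹ : SL(2, ℤ)) : Matrix (Fin 2) (Fin 2) ℤ).trace =
      ((γ : SL(2, ℤ)) : Matrix (Fin 2) (Fin 2) ℤ).trace := by
    rw [Matrix.SpecialLinearGroup.coe_mul, Matrix.trace_mul_comm, ← Matrix.SpecialLinearGroup.coe_mul,
      inv_mul_cancel_left]
  rw [h, h2]
  exact hγ

/-- the diamond operator only depends on the lower right entry. -/
theorem diaHom_congr {δ δ' : Gamma0 N} (h : lr N (δ : SL(2, ℤ)) = lr N (δ' : SL(2, ℤ)))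
    {A : Type} [AddCommGroup A] (φ : Additive Γ →+ A) : diaHom N Γ δ φ = diaHom N Γ δ' φ := by
  have hη : (δ : SL(2, ℤ)) * (δ' : SL(2, ℤ))⁻¹ ∈ Γ :=
    IsMid.ge1 (N := N) (W1.mul_inv_mem_Gamma1 δ.2 δ'.2 h)
  refine AddMonoidHom.ext fun x => ?_
  obtain ⟨γ, rfl⟩ := Additive.ofMul.surjective x
  rw [diaHom_apply, diaHom_apply]
  have e : cj N Γ δ γ = ⟨_, hη⟩ * cj N Γ δ' γ * (⟨_, hη⟩ : Γ)⁻¹ := by
    apply Subtype.ext
    simp only [coe_cj, Subgroup.coe_mul, Subgroup.coe_inv]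
    group
  rw [e, ofMul_mul, ofMul_mul, ofMul_inv, map_add, map_add, map_neg]
  abel

/-! ### the lattice -/

/-- the lattice `Hom_par(Γ, ℤ)`. -/
abbrev Lat (Γ : Subgroup SL(2, ℤ)) : Type := parabolicHoms ℤ Γ ℤ

theorem exists_lat_embedding (Γ : Subgroup SL(2, ℤ)) [Γ.FiniteIndex] :
    ∃ (S : Set (Additive Γ)) (_ : S.Finite) (ev : Lat Γ →ₗ[ℤ] (S → ℤ)),
      Function.Injective ev := by
  have : Group.FG Γ := Subgroup.fg_of_index_ne_zero Γ
  obtain ⟨S, hS, hfin⟩ := AddGroup.fg_iff.mp (inferInstance : AddGroup.FG (Additive Γ))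
  let ev : Lat Γ →ₗ[ℤ] (S → ℤ) :=
    { toFun := fun φ s => φ.1 s.1
      map_add' := fun _ _ => rfl
      map_smul' := fun _ _ => rfl }
  refine ⟨S, hfin, ev, ?_⟩
  intro φ ψ h
  apply Subtype.ext
  refine AddMonoidHom.eq_of_eqOn_dense hS fun s hs => ?_
  exact congrFun h ⟨s, hs⟩

instance lat_finite (Γ : Subgroup SL(2, ℤ)) [Γ.FiniteIndex] : Module.Finite ℤ (Lat Γ) := by
  obtain ⟨S, hfin, ev, hev⟩ := exists_lat_embedding Γ
  have : Finite S := hfin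
  exact Module.Finite.of_injective ev hev

instance lat_free (Γ : Subgroup SL(2, ℤ)) [Γ.FiniteIndex] : Module.Free ℤ (Lat Γ) := by
  obtain ⟨S, hfin, ev, hev⟩ := exists_lat_embedding Γ
  have : Finite S := hfin
  exact Module.Free.of_equiv (LinearEquiv.ofInjective ev hev).symm

/-- the Hecke operator `T_ℓ` on the lattice, for a prime `ℓ`. -/
noncomputable def latHecke {ℓ : ℕ} (hℓ : ℓ.Prime) : Module.End ℤ (Lat Γ) where
  toFun φ := ⟨heckeHom N Γ hℓ φ.1, heckeHom_isParabolic N Γ hℓ φ.1 φ.2⟩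
  map_add' φ ψ := by
    apply Subtype.ext
    refine AddMonoidHom.ext fun γ => ?_
    exact congrFun (heckeFun_add N Γ hℓ (fun δ => φ.1 (Additive.ofMul δ))
      (fun δ => ψ.1 (Additive.ofMul δ))) (Additive.toMul γ)
  map_smul' c φ := by
    apply Subtype.ext
    refine AddMonoidHom.ext fun γ => ?_
    exact congrFun (heckeFun_zsmul N Γ hℓ c (fun δ => φ.1 (Additive.ofMul δ))) (Additive.toMul γ)

/-- the family of Hecke operators on the lattice (`0` unless `ℓ ∤ N` is prime). -/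
noncomputable def latT (ℓ : ℕ) : Module.End ℤ (Lat Γ) :=
  open scoped Classical in if h : ℓ.Prime ∧ ¬ ℓ ∣ N then latHecke N Γ h.1 else 0

theorem latT_apply {ℓ : ℕ} (hℓ : ℓ.Prime) (hℓN : ¬ ℓ ∣ N) (φ : Lat Γ) (γ : Γ) :
    (latT N Γ ℓ φ).1 (Additive.ofMul γ) =
      heckeFun N Γ hℓ (fun δ => φ.1 (Additive.ofMul δ)) γ := by
  have : latT N Γ ℓ = latHecke N Γ hℓ := dif_pos ⟨hℓ, hℓN⟩
  rw [this]
  rfl

theorem latT_of_not {ℓ : ℕ} (h : ¬ (ℓ.Prime ∧ ¬ ℓ ∣ N)) : latT N Γ ℓ = 0 := dif_neg h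

/-- the diamond operator attached to `δ ∈ Γ₀(N)` on the lattice. -/
def latDia (δ : Gamma0 N) : Module.End ℤ (Lat Γ) where
  toFun φ := ⟨diaHom N Γ δ φ.1, diaHom_isParabolic N Γ δ φ.1 φ.2⟩
  map_add' _ _ := rfl
  map_smul' _ _ := rfl

/-- the diamond operator `⟨d⟩` on the lattice. -/
noncomputable def latD (d : (ZMod N)ˣ) : Module.End ℤ (Lat Γ) := latDia N Γ ⟨rep N d, rep_mem N d⟩

theorem latD_apply (d : (ZMod N)ˣ) (δ : Gamma0 N) (hδ : lr N (δ : SL(2, ℤ)) = d) (φ : Lat Γ)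
    (γ : Γ) : (latD N Γ d φ).1 (Additive.ofMul γ) = φ.1 (Additive.ofMul (cj N Γ δ γ)) := by
  have h : diaHom N Γ ⟨rep N d, rep_mem N d⟩ φ.1 = diaHom N Γ δ φ.1 :=
    diaHom_congr N Γ (by rw [hδ]; exact lr_rep N d) φ.1
  change diaHom N Γ ⟨rep N d, rep_mem N d⟩ φ.1 (Additive.ofMul γ) = _
  rw [h, diaHom_apply]

/-- integral classes as complex valued functions. -/
def latι (Γ : Subgroup SL(2, ℤ)) : Lat Γ →+ (Γ → ℂ) where
  toFun φ := fun γ => ((φ.1 (Additive.ofMul γ) : ℤ) : ℂ)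
  map_zero' := by funext γ; simp
  map_add' φ ψ := by funext γ; simp

/-- complex parabolic homomorphisms are spanned by the lattice. -/
theorem span_of_parabolic (Γ : Subgroup SL(2, ℤ)) [Γ.FiniteIndex] (ψ : Additive Γ →+ ℂ)
    (hψ : IsParabolicHom Γ ψ) :
    (fun γ : Γ => ψ (Additive.ofMul γ)) ∈ Submodule.span ℂ (Set.range (latι Γ)) := by
  have : Group.FG Γ := Subgroup.fg_of_index_ne_zero Γ
  have hfin : Module.Finite ℤ ψ.range := Module.Finite.iff_addGroup_fg.mpr inferInstance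
  let b := Module.Free.chooseBasis ℤ ψ.range
  let ψj : Module.Free.ChooseBasisIndex ℤ ψ.range → Lat Γ := fun j =>
    ⟨(b.coord j).toAddMonoidHom.comp ψ.rangeRestrict, by
      intro γ hγ
      have h0 : ψ.rangeRestrict (Additive.ofMul γ) = 0 := Subtype.ext (hψ γ hγ)
      change b.coord j (ψ.rangeRestrict (Additive.ofMul γ)) = 0
      rw [h0, map_zero]⟩
  have hsum : (fun γ : Γ => ψ (Additive.ofMul γ)) =
      ∑ j, ((b j : ψ.range) : ℂ) • latι Γ (ψj j) := by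
    funext γ
    have h1 := b.sum_repr (ψ.rangeRestrict (Additive.ofMul γ))
    have h2 := congrArg (Subtype.val : ψ.range → ℂ) h1
    rw [Finset.sum_apply]
    change ψ (Additive.ofMul γ) = _
    have h3 : ((ψ.rangeRestrict (Additive.ofMul γ) : ψ.range) : ℂ) = ψ (Additive.ofMul γ) := rfl
    rw [← h3, ← h2, AddSubgroup.val_finsetSum]
    refine Finset.sum_congr rfl fun j _ => ?_
    change ((b.repr (ψ.rangeRestrict (Additive.ofMul γ)) j • b j : ψ.range) : ℂ) =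
      ((b j : ψ.range) : ℂ) * ((b.coord j (ψ.rangeRestrict (Additive.ofMul γ)) : ℤ) : ℂ)
    rw [AddSubgroup.coe_zsmul, zsmul_eq_mul, mul_comm]
    rfl
  rw [hsum]
  exact Submodule.sum_mem _ fun j _ =>
    Submodule.smul_mem _ _ (Submodule.subset_span ⟨ψj j, rfl⟩)

end Fermat.Agent.S48.PER1
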