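import Fermat.Agent.S48.W1.Gam
import Fermat.Agent.S16.HeckeCoset

/-!
# S48 / PER1 : Hecke coset combinatorics for a group `Γ₁(N) ≤ Γ ≤ Γ₀(N)`

Twin of `S16/LBDefs.lean` + `S16/HeckeCoset.lean` (+ the cocycle relation of `S31/Lattice.lean`).

* `IsMid N Γ`            : `Γ₁(N) ≤ Γ ≤ Γ₀(N)`;
* `rep N d ∈ Γ₀(N)`      : a matrix with lower right entry `≡ d`;  `sig N ℓ = rep N (punit N ℓ)`;
* `hRep N ℓ x`           : the Hecke representatives `some j ↦ (1, j; 0, ℓ)`, `none ↦ σ_ℓ (ℓ, 0; 0, 1)`;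
* `hσ N Γ hℓ γ`, `hκ N Γ hℓ γ` : `β_x γ = κ_x β_{σ x}` with `κ_x ∈ Γ`;
* `heckeFun N Γ hℓ φ`    : the Hecke operator on functions `Γ → A`;
* `cj N Γ δ`             : conjugation by `δ ∈ Γ₀(N)` on `Γ`;  `diaFun N Γ δ φ = φ ∘ cj δ`.
-/

set_option autoImplicit false
set_option linter.unusedSectionVars false

namespace Fermat.Agent.S48.PER1

open CongruenceSubgroup Matrix.SpecialLinearGroup ModularForm
open Fermat.Agent.S16 (HIdx)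
open Fermat.Agent.S48.W1 (lr punit)
open scoped MatrixGroups

/-- a group between `Γ₁(N)` and `Γ₀(N)`. -/
class IsMid (N : ℕ) (Γ : Subgroup SL(2, ℤ)) : Prop where
  ge1 : Gamma1 N ≤ Γ
  le0 : Γ ≤ Gamma0 N

instance isMid_Gamma1 (N : ℕ) : IsMid N (Gamma1 N) := ⟨le_rfl, W1.Gamma1_le_Gamma0⟩

instance isMid_Gamma0 (N : ℕ) : IsMid N (Gamma0 N) := ⟨W1.Gamma1_le_Gamma0, le_rfl⟩

theorem mem_of_lr_eq (N : ℕ) (Γ : Subgroup SL(2, ℤ)) [IsMid N Γ] {γ γ' : SL(2, ℤ)} (hγ : γ ∈ Γ)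
    (hγ' : γ' ∈ Gamma0 N) (h : lr N γ' = lr N γ) : γ' ∈ Γ := by
  have h1 := W1.mul_inv_mem_Gamma1 hγ' (IsMid.le0 (N := N) hγ) h
  have h2 := Γ.mul_mem (IsMid.ge1 (N := N) (Γ := Γ) h1) hγ
  simpa using h2

theorem finiteIndex_of_isMid (N : ℕ) [NeZero N] (Γ : Subgroup SL(2, ℤ)) [IsMid N Γ] :
    Γ.FiniteIndex :=
  Subgroup.finiteIndex_of_le (IsMid.ge1 (N := N) (Γ := Γ))

/-! ### representatives of `Γ₀(N) / Γ₁(N)` -/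

/-- a matrix in `Γ₀(N)` with lower right entry `≡ d`. -/
noncomputable def rep (N : ℕ) [NeZero N] (d : (ZMod N)ˣ) : SL(2, ℤ) :=
  (W1.exists_rep d 1 (Nat.coprime_one_left N)).choose

theorem rep_mem (N : ℕ) [NeZero N] (d : (ZMod N)ˣ) : rep N d ∈ Gamma0 N :=
  (W1.exists_rep d 1 (Nat.coprime_one_left N)).choose_spec.1

theorem lr_rep (N : ℕ) [NeZero N] (d : (ZMod N)ˣ) : lr N (rep N d) = d :=
  (W1.exists_rep d 1 (Nat.coprime_one_left N)).choose_spec.2.1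

/-- `σ_ℓ ∈ Γ₀(N)` with lower right entry `≡ ℓ`. -/
noncomputable def sig (N ℓ : ℕ) [NeZero N] : SL(2, ℤ) := rep N (punit N ℓ)

theorem sig_mem (N ℓ : ℕ) [NeZero N] : sig N ℓ ∈ Gamma0 N := rep_mem N _

theorem lr_sig (N : ℕ) [NeZero N] {ℓ : ℕ} (hℓ : ℓ.Prime) (hℓN : ¬ ℓ ∣ N) :
    lr N (sig N ℓ) = (ℓ : ZMod N) := by
  rw [sig, lr_rep, W1.coe_punit (W1.coprime_of_prime hℓ hℓN)]

/-- the correction factor: `1` at `some j`, `σ_ℓ` at `none`. -/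
noncomputable def sx (N ℓ : ℕ) [NeZero N] : Option (Fin ℓ) → SL(2, ℤ)
  | some _ => 1
  | none => sig N ℓ

theorem sx_mem (N ℓ : ℕ) [NeZero N] (x : Option (Fin ℓ)) : sx N ℓ x ∈ Gamma0 N := by
  cases x with
  | some j => exact one_mem _
  | none => exact sig_mem N ℓ

/-- the Hecke representatives for `Γ`: `(1, j; 0, ℓ)` and `σ_ℓ (ℓ, 0; 0, 1)`. -/
noncomputable def hRep (N ℓ : ℕ) [NeZero N] (x : Option (Fin ℓ)) : GL (Fin 2) ℝ :=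
  mapGL ℝ (sx N ℓ x) * S16.hRep ℓ x

theorem hRep_some (N ℓ : ℕ) [NeZero N] (j : Fin ℓ) : hRep N ℓ (some j) = heckeMatrix ℓ j := by
  simp [hRep, sx, S16.hRep]

theorem hRep_none (N ℓ : ℕ) [NeZero N] :
    hRep N ℓ none = mapGL ℝ (sig N ℓ) * heckeDiagMatrix ℓ := rfl

theorem det_hRep_pos (N ℓ : ℕ) [NeZero N] (x : Option (Fin ℓ)) :
    0 < ((hRep N ℓ x).det : ℝ) := by
  have h1 : 0 < ((S16.hRep ℓ x).det : ℝ) := by
    cases x with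
    | none => exact det_heckeDiagMatrix_pos ℓ
    | some j => exact det_heckeMatrix_pos ℓ j
  simpa [hRep] using h1

/-! ### the lower right entries -/

/-- the lower right entries in `β_x γ = κ β_y` (plain representatives). -/
theorem lr_track (N : ℕ) {ℓ : ℕ} (hℓ : ℓ ≠ 0) {γ κ : SL(2, ℤ)} (hγ : γ ∈ Gamma0 N)
    (hκ : κ ∈ Gamma0 N) (x y : Option (Fin ℓ))
    (h : S16.hRep ℓ x * mapGL ℝ γ = mapGL ℝ κ * S16.hRep ℓ y) :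
    match x, y with
    | some _, some _ => lr N κ = lr N γ
    | some _, none => lr N κ = (ℓ : ZMod N) * lr N γ
    | none, some _ => (ℓ : ZMod N) * lr N κ = lr N γ
    | none, none => lr N κ = lr N γ := by
  have hM : ((S16.hRep ℓ x : GL (Fin 2) ℝ) : Matrix (Fin 2) (Fin 2) ℝ) *
      ((mapGL ℝ γ : GL (Fin 2) ℝ) : Matrix (Fin 2) (Fin 2) ℝ) =
      ((mapGL ℝ κ : GL (Fin 2) ℝ) : Matrix (Fin 2) (Fin 2) ℝ) * (S16.hRep ℓ y : GL (Fin 2) ℝ) := by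
    have := congrArg (fun g : GL (Fin 2) ℝ => (g : Matrix (Fin 2) (Fin 2) ℝ)) h
    simpa using this
  have e10 := congrFun (congrFun hM 1) 0
  have e11 := congrFun (congrFun hM 1) 1
  rw [S16.hRep_entries ℓ hℓ, S16.hRep_entries ℓ hℓ] at e10 e11
  have hγ0 : (((γ 1 0 : ℤ)) : ZMod N) = 0 := Gamma0_mem.mp hγ
  have hκ0 : (((κ 1 0 : ℤ)) : ZMod N) = 0 := Gamma0_mem.mp hκ
  have hℓ' : (ℓ : ℤ) ≠ 0 := by exact_mod_cast hℓ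
  cases x with
  | some j =>
    cases y with
    | some j' =>
      simp [Matrix.mul_apply, Fin.sum_univ_two] at e10 e11
      have f10 : (ℓ : ℤ) * γ 1 0 = κ 1 0 := by exact_mod_cast e10
      have f11 : (ℓ : ℤ) * γ 1 1 = κ 1 0 * ((j' : ℕ) : ℤ) + κ 1 1 * (ℓ : ℤ) := by
        exact_mod_cast e11
      have f : κ 1 1 = γ 1 1 - γ 1 0 * ((j' : ℕ) : ℤ) := by
        apply mul_left_cancel₀ hℓ'
        rw [← f10] at f11
        linear_combination -f11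
      show ((κ 1 1 : ℤ) : ZMod N) = ((γ 1 1 : ℤ) : ZMod N)
      rw [f]
      push_cast
      rw [hγ0]
      ring
    | none =>
      simp [Matrix.mul_apply, Fin.sum_univ_two] at e10 e11
      have f11 : (ℓ : ℤ) * γ 1 1 = κ 1 1 := by exact_mod_cast e11
      show ((κ 1 1 : ℤ) : ZMod N) = (ℓ : ZMod N) * ((γ 1 1 : ℤ) : ZMod N)
      rw [← f11]
      push_cast
      ring
  | none =>
    cases y with
    | some j' =>
      simp [Matrix.mul_apply, Fin.sum_univ_two] at e10 e11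
      have f11 : γ 1 1 = κ 1 0 * ((j' : ℕ) : ℤ) + κ 1 1 * (ℓ : ℤ) := by exact_mod_cast e11
      show (ℓ : ZMod N) * ((κ 1 1 : ℤ) : ZMod N) = ((γ 1 1 : ℤ) : ZMod N)
      rw [f11]
      push_cast
      rw [hκ0]
      ring
    | none =>
      simp [Matrix.mul_apply, Fin.sum_univ_two] at e10 e11
      have f11 : γ 1 1 = κ 1 1 := by exact_mod_cast e11
      show ((κ 1 1 : ℤ) : ZMod N) = ((γ 1 1 : ℤ) : ZMod N)
      rw [f11]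

/-- the corrected `κ` has the same lower right entry as `γ`. -/
theorem lr_corrected (N : ℕ) [NeZero N] {ℓ : ℕ} (hℓ : ℓ.Prime) {γ κ : SL(2, ℤ)}
    (hγ : γ ∈ Gamma0 N) (hκ : κ ∈ Gamma0 N) (x y : HIdx N ℓ)
    (h : S16.hRep ℓ x.1 * mapGL ℝ γ = mapGL ℝ κ * S16.hRep ℓ y.1) :
    lr N (sx N ℓ x.1 * κ * (sx N ℓ y.1)⁻¹) = lr N γ := by
  have h0 := lr_track N hℓ.ne_zero hγ hκ x.1 y.1 h
  obtain ⟨x, hx⟩ := x
  obtain ⟨y, hy⟩ := y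
  have hs := sig_mem N ℓ
  cases x with
  | some j =>
    cases y with
    | some j' => simpa [sx] using h0
    | none =>
      have hl := lr_sig N hℓ (hy rfl)
      have hi := W1.lr_inv hs
      simp only [sx, one_mul] at h0 ⊢
      rw [W1.lr_mul hκ, h0, ← hl]
      linear_combination (lr N γ) * hi
  | none =>
    have hl := lr_sig N hℓ (hx rfl)
    cases y with
    | some j' =>
      simp only [sx, inv_one, mul_one] at h0 ⊢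
      rw [W1.lr_mul hs, hl, h0]
    | none =>
      have hi := W1.lr_inv hs
      simp only [sx] at h0 ⊢
      rw [W1.lr_mul ((Gamma0 N).mul_mem hs hκ), W1.lr_mul hs, h0]
      linear_combination (lr N γ) * hi

/-! ### the permutation of the cosets -/

section perm

variable (N : ℕ) [NeZero N] (Γ : Subgroup SL(2, ℤ)) [IsMid N Γ]

/-- an element of `Γ` as an element of `Γ₀(N)`. -/
def toG0 (γ : Γ) : Gamma0 N := ⟨γ, IsMid.le0 γ.2⟩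

@[simp] theorem coe_toG0 (γ : Γ) : ((toG0 N Γ γ : Gamma0 N) : SL(2, ℤ)) = γ := rfl

/-- uniqueness of the index of a coset. -/
theorem hRep_index_unique {ℓ : ℕ} (hℓ : ℓ.Prime) (δ : SL(2, ℤ)) (x y : HIdx N ℓ)
    (h : hRep N ℓ x.1 = mapGL ℝ δ * hRep N ℓ y.1) : x = y ∧ δ = 1 := by
  have h1 : S16.hRep ℓ x.1 = mapGL ℝ ((sx N ℓ x.1)⁻¹ * δ * sx N ℓ y.1) * S16.hRep ℓ y.1 := by
    rw [map_mul, map_mul, map_inv, mul_assoc, mul_assoc, eq_inv_mul_iff_mul_eq]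
    rw [hRep, hRep] at h
    rw [h]
  obtain ⟨e1, e2⟩ := S16.hRep_index_unique N hℓ _ x y h1
  refine ⟨e1, ?_⟩
  subst e1
  have : δ = sx N ℓ x.1 * ((sx N ℓ x.1)⁻¹ * δ * sx N ℓ x.1) * (sx N ℓ x.1)⁻¹ := by group
  rw [this, e2]
  group

/-- the permutation of the index set induced by right multiplication by `γ ∈ Γ`. -/
noncomputable def hσ {ℓ : ℕ} (hℓ : ℓ.Prime) (γ : Γ) : Equiv.Perm (HIdx N ℓ) :=
  S16.hσ N hℓ (toG0 N Γ γ)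

/-- `β_x γ = κ_x β_{σ x}`. -/
noncomputable def hκ {ℓ : ℕ} (hℓ : ℓ.Prime) (γ : Γ) (x : HIdx N ℓ) : Γ :=
  ⟨sx N ℓ x.1 * (S16.hκ N hℓ (toG0 N Γ γ) x : SL(2, ℤ)) * (sx N ℓ (hσ N Γ hℓ γ x).1)⁻¹,
    mem_of_lr_eq N Γ γ.2
      ((Gamma0 N).mul_mem ((Gamma0 N).mul_mem (sx_mem N ℓ _) (S16.hκ N hℓ (toG0 N Γ γ) x).2)
        ((Gamma0 N).inv_mem (sx_mem N ℓ _)))
      (lr_corrected N hℓ (IsMid.le0 γ.2) (S16.hκ N hℓ (toG0 N Γ γ) x).2 x _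
        (S16.hRep_mul N hℓ (toG0 N Γ γ) x))⟩

theorem coe_hκ {ℓ : ℕ} (hℓ : ℓ.Prime) (γ : Γ) (x : HIdx N ℓ) :
    ((hκ N Γ hℓ γ x : Γ) : SL(2, ℤ)) =
      sx N ℓ x.1 * (S16.hκ N hℓ (toG0 N Γ γ) x : SL(2, ℤ)) * (sx N ℓ (hσ N Γ hℓ γ x).1)⁻¹ := rfl

theorem lr_hκ {ℓ : ℕ} (hℓ : ℓ.Prime) (γ : Γ) (x : HIdx N ℓ) :
    lr N (hκ N Γ hℓ γ x : SL(2, ℤ)) = lr N (γ : SL(2, ℤ)) :=
  lr_corrected N hℓ (IsMid.le0 γ.2) (S16.hκ N hℓ (toG0 N Γ γ) x).2 x _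
    (S16.hRep_mul N hℓ (toG0 N Γ γ) x)

theorem hRep_mul {ℓ : ℕ} (hℓ : ℓ.Prime) (γ : Γ) (x : HIdx N ℓ) :
    hRep N ℓ x.1 * mapGL ℝ (γ : SL(2, ℤ)) =
      mapGL ℝ (hκ N Γ hℓ γ x : SL(2, ℤ)) * hRep N ℓ (hσ N Γ hℓ γ x).1 := by
  have h := S16.hRep_mul N hℓ (toG0 N Γ γ) x
  rw [coe_toG0] at h
  rw [coe_hκ, hRep, hRep, mul_assoc, h, map_mul, map_mul, map_inv]
  simp only [hσ]
  group

/-- the cocycle relation. -/
theorem hecke_cocycle {ℓ : ℕ} (hℓ : ℓ.Prime) (γ δ : Γ) (x : HIdx N ℓ) :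
    hσ N Γ hℓ (γ * δ) x = hσ N Γ hℓ δ (hσ N Γ hℓ γ x) ∧
      hκ N Γ hℓ (γ * δ) x = hκ N Γ hℓ γ x * hκ N Γ hℓ δ (hσ N Γ hℓ γ x) := by
  have h1 := hRep_mul N Γ hℓ (γ * δ) x
  have h2 := hRep_mul N Γ hℓ γ x
  have h3 := hRep_mul N Γ hℓ δ (hσ N Γ hℓ γ x)
  have h4 : hRep N ℓ x.1 * mapGL ℝ ((γ * δ : Γ) : SL(2, ℤ)) =
      mapGL ℝ (hκ N Γ hℓ γ x : SL(2, ℤ)) * mapGL ℝ (hκ N Γ hℓ δ (hσ N Γ hℓ γ x) : SL(2, ℤ)) *
        hRep N ℓ (hσ N Γ hℓ δ (hσ N Γ hℓ γ x)).1 := by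
    rw [Subgroup.coe_mul, map_mul, ← mul_assoc, h2, mul_assoc, h3, mul_assoc]
  rw [h1] at h4
  have h5 : hRep N ℓ (hσ N Γ hℓ (γ * δ) x).1 =
      mapGL ℝ ((hκ N Γ hℓ (γ * δ) x : SL(2, ℤ))⁻¹ * ((hκ N Γ hℓ γ x : SL(2, ℤ)) *
        (hκ N Γ hℓ δ (hσ N Γ hℓ γ x) : SL(2, ℤ)))) * hRep N ℓ (hσ N Γ hℓ δ (hσ N Γ hℓ γ x)).1 := by
    rw [map_mul, map_mul, map_inv, mul_assoc, ← h4, inv_mul_cancel_left]
  obtain ⟨e1, e2⟩ := hRep_index_unique N hℓ _ _ _ h5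
  refine ⟨e1, ?_⟩
  apply Subtype.ext
  rw [Subgroup.coe_mul]
  exact (inv_mul_eq_one.mp e2)

theorem hσ_pow {ℓ : ℕ} (hℓ : ℓ.Prime) (γ : Γ) (r : ℕ) :
    hσ N Γ hℓ (γ ^ (r + 1)) = (hσ N Γ hℓ γ) ^ (r + 1) := by
  induction r with
  | zero => simp
  | succ r ih =>
    ext1 x
    rw [pow_succ γ, (hecke_cocycle N Γ hℓ _ _ x).1, ih, pow_succ' (hσ N Γ hℓ γ) (r + 1)]
    rfl

/-- The Hecke operator at `ℓ` on functions `Γ → A`. -/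
noncomputable def heckeFun {ℓ : ℕ} (hℓ : ℓ.Prime) {A : Type} [AddCommMonoid A]
    (φ : Γ → A) (γ : Γ) : A :=
  ∑ x : HIdx N ℓ, φ (hκ N Γ hℓ γ x)

theorem heckeFun_comp {ℓ : ℕ} (hℓ : ℓ.Prime) {A B : Type} [AddCommMonoid A]
    [AddCommMonoid B] (g : A →+ B) (φ : Γ → A) (γ : Γ) :
    heckeFun N Γ hℓ (fun δ => g (φ δ)) γ = g (heckeFun N Γ hℓ φ γ) := by
  simp only [heckeFun, map_sum]

theorem heckeFun_add {ℓ : ℕ} (hℓ : ℓ.Prime) {A : Type} [AddCommMonoid A]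
    (φ ψ : Γ → A) : heckeFun N Γ hℓ (φ + ψ) = heckeFun N Γ hℓ φ + heckeFun N Γ hℓ ψ := by
  funext γ
  simp only [heckeFun, Pi.add_apply, Finset.sum_add_distrib]

theorem heckeFun_zsmul {ℓ : ℕ} (hℓ : ℓ.Prime) {A : Type} [AddCommGroup A]
    (c : ℤ) (φ : Γ → A) : heckeFun N Γ hℓ (c • φ) = c • heckeFun N Γ hℓ φ := by
  funext γ
  simp only [heckeFun, Pi.smul_apply, Finset.smul_sum]

/-! ### conjugation by `Γ₀(N)` (diamond operators) -/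

theorem conj_mem {δ : SL(2, ℤ)} (hδ : δ ∈ Gamma0 N) {γ : SL(2, ℤ)} (hγ : γ ∈ Γ) :
    δ * γ * δ⁻¹ ∈ Γ := by
  have hγ0 : γ ∈ Gamma0 N := IsMid.le0 hγ
  refine mem_of_lr_eq N Γ hγ
    ((Gamma0 N).mul_mem ((Gamma0 N).mul_mem hδ hγ0) ((Gamma0 N).inv_mem hδ)) ?_
  rw [W1.lr_mul ((Gamma0 N).mul_mem hδ hγ0), W1.lr_mul hδ]
  linear_combination (lr N γ) * W1.lr_inv hδ

/-- conjugation by `δ ∈ Γ₀(N)`: `γ ↦ δ γ δ⁻¹`. -/
def cj (δ : Gamma0 N) : Γ →* Γ where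
  toFun γ := ⟨(δ : SL(2, ℤ)) * γ * (δ : SL(2, ℤ))⁻¹, conj_mem N Γ δ.2 γ.2⟩
  map_one' := by
    apply Subtype.ext
    simp
  map_mul' γ γ' := by
    apply Subtype.ext
    simp only [Subgroup.coe_mul]
    group

@[simp] theorem coe_cj (δ : Gamma0 N) (γ : Γ) :
    ((cj N Γ δ γ : Γ) : SL(2, ℤ)) = (δ : SL(2, ℤ)) * γ * (δ : SL(2, ℤ))⁻¹ := rfl

/-- the diamond operator on functions `Γ → A`. -/
def diaFun (δ : Gamma0 N) {A : Type} (φ : Γ → A) (γ : Γ) : A := φ (cj N Γ δ γ)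

end perm

end Fermat.Agent.S48.PER1
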