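import Fermat.Agent.ES.Injective

/-!
# S48 / PER1 : the period homomorphism of a weight two cusp form on an arbitrary subgroup of finite index of `SL(2,ℤ)`

Twin of `ES/Period.lean`.  `IsPrim Γ f F` : `F` is the primitive of `f` vanishing at `i∞`;
`per Γ f : Additive Γ →+ ℂ`, `per Γ f γ = F (γ z) - F z`; it is additive and `ℂ`-homogeneous in `f`, parabolic, and
`per Γ f = 0` implies `f = 0`.
-/

set_option autoImplicit false

open UpperHalfPlane hiding I
open Complex ModularGroup CongruenceSubgroup ModularForm Filter Topology Function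
open scoped MatrixGroups Manifold Real ModularForm
open Derivative

namespace Fermat.Agent.S48.PER1

open ModularCurve ModularCurve.Period

variable (Γ : Subgroup SL(2, ℤ)) [Γ.FiniteIndex]

/-- `F` is the primitive of `f` which vanishes at `i∞`. -/
def IsPrim (f : CuspForm Γ 2) (F : ℍ → ℂ) : Prop :=
  MDiff F ∧ D F = (2 * π * I : ℂ)⁻¹ • (f : ℍ → ℂ) ∧ IsZeroAtImInfty F

variable {Γ}

theorem exists_isPrim (f : CuspForm Γ 2) : ∃ F : ℍ → ℂ, IsPrim Γ f F := by
  obtain ⟨G, hG, hDG, hGz⟩ := ES.exists_prim_slash f 1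
  have hDG' : D G = f := by simpa using hDG
  refine ⟨(2 * π * I : ℂ)⁻¹ • G, hG.const_smul _, ?_, ?_⟩
  · rw [normalizedDerivOfComplex_smul _ _ hG, hDG']
  · have : Tendsto (fun w : ℍ => (2 * π * I : ℂ)⁻¹ * G w) atImInfty
        (𝓝 ((2 * π * I : ℂ)⁻¹ * 0)) := hGz.const_mul _
    rw [mul_zero] at this
    exact this

theorem IsPrim.unique {f : CuspForm Γ 2} {F F' : ℍ → ℂ} (h : IsPrim Γ f F) (h' : IsPrim Γ f F') :
    F = F' :=
  Fermat.Agent.S22.primitive_unique h.1 h'.1 (h.2.1.trans h'.2.1.symm) h.2.2 h'.2.2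

theorem IsPrim.hasDerivAt {f : CuspForm Γ 2} {F : ℍ → ℂ} (h : IsPrim Γ f F) (τ : ℍ) :
    HasDerivAt (F ∘ ofComplex) (f τ) ↑τ := by
  have h2pi : (2 * π * I : ℂ) ≠ 0 := by simp [Real.pi_ne_zero]
  have h1 : DifferentiableAt ℂ (F ∘ ofComplex) τ := mdifferentiableAt_iff.mp (h.1 τ)
  have h2 := congrFun h.2.1 τ
  simp only [normalizedDerivOfComplex, Pi.smul_apply, smul_eq_mul] at h2
  have h3 : deriv (F ∘ ofComplex) τ = f τ := mul_left_cancel₀ (inv_ne_zero h2pi) h2
  rw [← h3]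
  exact h1.hasDerivAt

theorem IsPrim.equivariant {f : CuspForm Γ 2} {F : ℍ → ℂ} (h : IsPrim Γ f F) :
    IsEquivariantPrimitive Γ F := by
  intro γ
  obtain ⟨hF, hD, -⟩ := h
  have hH : MDiff (fun z => F ((γ : SL(2, ℤ)) • z) - F z) := (ES.mdiff_comp_smul hF γ).sub hF
  have hinv : ((f : ℍ → ℂ) ∣[(2 : ℤ)] (γ : SL(2, ℤ))) = f :=
    SlashInvariantFormClass.slash_action_eq f _ ⟨γ, γ.2, rfl⟩
  have hDH : D (fun z => F ((γ : SL(2, ℤ)) • z) - F z) = 0 := by
    have := normalizedDerivOfComplex_sub _ _ (ES.mdiff_comp_smul hF (γ : SL(2, ℤ))) hF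
    rw [show (fun z => F ((γ : SL(2, ℤ)) • z) - F z) = (fun z => F ((γ : SL(2, ℤ)) • z)) - F
      from rfl, this, ES.D_comp_smul hF, hD, ModularForm.SL_smul_slash, hinv, sub_self]
  obtain ⟨c, hc⟩ := Fermat.Agent.S22.const_of_D_eq_zero hH hDH
  exact ⟨c, hc⟩

/-- the primitive has a limit at every cusp. -/
theorem IsPrim.exists_tendsto {f : CuspForm Γ 2} {F : ℍ → ℂ} (h : IsPrim Γ f F) (δ : SL(2, ℤ)) :
    ∃ L : ℂ, Tendsto (fun w : ℍ => F (δ • w)) atImInfty (𝓝 L) := by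
  obtain ⟨hF, hD, -⟩ := h
  obtain ⟨G, hG, hDG, hGz⟩ := ES.exists_prim_slash f δ
  have hG' : MDiff ((2 * π * I : ℂ)⁻¹ • G) := hG.const_smul _
  have hH : MDiff ((fun z => F (δ • z)) - (2 * π * I : ℂ)⁻¹ • G) :=
    (ES.mdiff_comp_smul hF δ).sub hG'
  have hDH : D ((fun z => F (δ • z)) - (2 * π * I : ℂ)⁻¹ • G) = 0 := by
    rw [normalizedDerivOfComplex_sub _ _ (ES.mdiff_comp_smul hF δ) hG', ES.D_comp_smul hF, hD,
      ModularForm.SL_smul_slash, normalizedDerivOfComplex_smul _ _ hG, hDG, sub_self]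
  obtain ⟨c, hc⟩ := Fermat.Agent.S22.const_of_D_eq_zero hH hDH
  refine ⟨c, ?_⟩
  have h1 : (fun w : ℍ => F (δ • w)) = fun w => c + (2 * π * I : ℂ)⁻¹ * G w := by
    ext w
    have := hc w
    simp only [Pi.sub_apply, Pi.smul_apply, smul_eq_mul] at this
    rw [← this]; ring
  rw [h1]
  have h2 : Tendsto (fun w : ℍ => c + (2 * π * I : ℂ)⁻¹ * G w) atImInfty
      (𝓝 (c + (2 * π * I : ℂ)⁻¹ * 0)) := tendsto_const_nhds.add (hGz.const_mul _)
  simpa using h2

variable (Γ)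

/-- the period homomorphism `γ ↦ ∫_z^{γ z} f`. -/
noncomputable def per (f : CuspForm Γ 2) : Additive Γ →+ ℂ :=
  ((exists_isPrim f).choose_spec.equivariant).periodHom

variable {Γ}

theorem per_apply {f : CuspForm Γ 2} {F : ℍ → ℂ} (hF : IsPrim Γ f F) (γ : Γ) (z : ℍ) :
    per Γ f (Additive.ofMul γ) = F ((γ : SL(2, ℤ)) • z) - F z := by
  obtain rfl := (exists_isPrim f).choose_spec.unique hF
  rw [per, IsEquivariantPrimitive.periodHom_apply, ← IsEquivariantPrimitive.sub_eq_period]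

theorem IsPrim.add {f g : CuspForm Γ 2} {F G : ℍ → ℂ} (hF : IsPrim Γ f F) (hG : IsPrim Γ g G) :
    IsPrim Γ (f + g) (F + G) := by
  refine ⟨hF.1.add hG.1, ?_, ?_⟩
  · rw [normalizedDerivOfComplex_add _ _ hF.1 hG.1, hF.2.1, hG.2.1, FunLike.coe_add, smul_add]
  · have := Tendsto.add hF.2.2 hG.2.2
    rw [add_zero] at this
    exact this

theorem IsPrim.smul {f : CuspForm Γ 2} {F : ℍ → ℂ} (hF : IsPrim Γ f F) (c : ℂ) :
    IsPrim Γ (c • f) (c • F) := by
  refine ⟨hF.1.const_smul c, ?_, ?_⟩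
  · rw [normalizedDerivOfComplex_smul _ _ hF.1, hF.2.1, FunLike.coe_smul, smul_comm]
  · have : Tendsto (fun w : ℍ => c * F w) atImInfty (𝓝 (c * 0)) := hF.2.2.const_mul c
    rw [mul_zero] at this
    exact this

theorem per_add (f g : CuspForm Γ 2) : per Γ (f + g) = per Γ f + per Γ g := by
  obtain ⟨F, hF⟩ := exists_isPrim f
  obtain ⟨G, hG⟩ := exists_isPrim g
  refine AddMonoidHom.ext fun x => ?_
  obtain ⟨γ, rfl⟩ := Additive.ofMul.surjective x
  rw [AddMonoidHom.add_apply, per_apply (hF.add hG) γ UpperHalfPlane.I,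
    per_apply hF γ UpperHalfPlane.I, per_apply hG γ UpperHalfPlane.I]
  simp only [Pi.add_apply]
  ring

theorem per_smul (c : ℂ) (f : CuspForm Γ 2) : per Γ (c • f) = c • per Γ f := by
  obtain ⟨F, hF⟩ := exists_isPrim f
  refine AddMonoidHom.ext fun x => ?_
  obtain ⟨γ, rfl⟩ := Additive.ofMul.surjective x
  rw [AddMonoidHom.smul_apply, per_apply (hF.smul c) γ UpperHalfPlane.I,
    per_apply hF γ UpperHalfPlane.I]
  simp only [Pi.smul_apply, smul_eq_mul]
  ring

variable (Γ)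

/-- the period map as a linear map. -/
noncomputable def perL : CuspForm Γ 2 →ₗ[ℂ] (Additive Γ →+ ℂ) where
  toFun := per Γ
  map_add' := per_add
  map_smul' := per_smul

variable {Γ}

@[simp] theorem perL_apply (f : CuspForm Γ 2) : perL Γ f = per Γ f := rfl

theorem per_parabolic (f : CuspForm Γ 2) : IsParabolicHom Γ (per Γ f) := by
  intro γ hγ
  obtain ⟨F, hF⟩ := exists_isPrim f
  obtain ⟨δ, n, hδ⟩ := ES.exists_conj_T (γ : SL(2, ℤ)) hγ
  obtain ⟨L, hL⟩ := hF.exists_tendsto δ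
  have hT : Tendsto (fun w : ℍ => T ^ n • w) atImInfty atImInfty := ES.Inj.tendsto_T_zpow_smul n
  have h1 : Tendsto (fun w : ℍ => F ((γ : SL(2, ℤ)) • (δ • w)) - F (δ • w)) atImInfty
      (𝓝 (L - L)) := by
    refine Tendsto.sub ?_ hL
    simp only [hδ]
    exact hL.comp hT
  have h2 : (fun w : ℍ => F ((γ : SL(2, ℤ)) • (δ • w)) - F (δ • w))
      = fun _ => per Γ f (Additive.ofMul γ) := by
    ext w
    rw [per_apply hF γ (δ • w)]
  rw [h2, sub_self] at h1
  exact tendsto_nhds_unique tendsto_const_nhds h1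

theorem per_mem_parabolicHoms (f : CuspForm Γ 2) : per Γ f ∈ parabolicHoms ℂ Γ ℂ :=
  (mem_parabolicHoms_iff (R := ℂ)).mpr (per_parabolic f)

/-- **injectivity of the period map**: a holomorphic differential all of whose periods vanish is zero (maximum
principle for the invariant primitive). -/
theorem eq_zero_of_per_eq_zero (f : CuspForm Γ 2) (h : per Γ f = 0) : f = 0 := by
  obtain ⟨F, hF⟩ := exists_isPrim f
  obtain ⟨c, hc⟩ := ES.Inj.exp_const_of_invariant Γ F hF.1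
    (by
      intro γ hγ
      refine ⟨0, rfl, fun z => ?_⟩
      have h1 := per_apply hF ⟨γ, hγ⟩ z
      rw [h, AddMonoidHom.zero_apply] at h1
      have h2 : F (γ • z) - F z = 0 := h1.symm
      linear_combination h2)
    hF.exists_tendsto
  ext τ
  exact ES.Inj.deriv_zero_of_exp_const hF.hasDerivAt hc τ

theorem per_injective : Function.Injective (per Γ) := by
  intro f g h
  have h1 : per Γ (f - g) = 0 := by
    have := (perL Γ).map_sub f g
    simp only [perL_apply] at this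
    rw [this, h, sub_self]
  exact sub_eq_zero.mp (eq_zero_of_per_eq_zero _ h1)

end Fermat.Agent.S48.PER1
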