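import Fermat.Agent.S48.PER1.Lattice
import Fermat.Agent.S48.PER1.Period

/-!
# S48 / PER1 : the period map is Hecke and diamond equivariant; the `link`

Twin of `S16/PeriodHecke.lean`, `S30/LinkPeriod.lean` and of the second half of `S31/Lattice.lean`.

* `per_of_coe_hecke` : if `g = ∑_x f ∣[2] β_x` then `per g = heckeFun (per f)`;
* `per_of_coe_dia`   : if `g = f ∣[2] δ` (`δ ∈ Γ₀(N)`) then `per g γ = per f (δ γ δ⁻¹)`;
* `lat_link_of`      : every relation between the `latT N Γ ℓ`, `latD N Γ d` holds between ANY operators `TS ℓ`, `DS d` on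
  `CuspForm Γ 2` which are given by these formulas.
-/

set_option autoImplicit false
set_option linter.unusedSectionVars false

namespace Fermat.Agent.S48.PER1

open CongruenceSubgroup Matrix.SpecialLinearGroup ModularForm ModularCurve ModularCurve.Period
open Fermat.Agent.S16 (HIdx)
open Fermat.Agent.S48.W1 (lr punit)
open scoped MatrixGroups Manifold

section analytic

open UpperHalfPlane hiding I
open Complex Filter Topology
open scoped Real
open Derivative

variable (N : ℕ) [NeZero N] (Γ : Subgroup SL(2, ℤ)) [IsMid N Γ] [Γ.FiniteIndex]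

/-- a primitive up to a constant computes the periods. -/
theorem per_apply_of_D {f : CuspForm Γ 2} {G : ℍ → ℂ} (hG : MDiff G)
    (hD : D G = (2 * π * I : ℂ)⁻¹ • (f : ℍ → ℂ)) (γ : Γ) (z : ℍ) :
    per Γ f (Additive.ofMul γ) = G ((γ : SL(2, ℤ)) • z) - G z := by
  obtain ⟨F, hF⟩ := exists_isPrim f
  have hH : MDiff (G - F) := hG.sub hF.1
  have hDH : D (G - F) = 0 := by
    rw [normalizedDerivOfComplex_sub _ _ hG hF.1, hD, hF.2.1, sub_self]
  obtain ⟨c, hc⟩ := Fermat.Agent.S22.const_of_D_eq_zero hH hDH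
  rw [per_apply hF γ z]
  have h1 := hc ((γ : SL(2, ℤ)) • z)
  have h2 := hc z
  simp only [Pi.sub_apply] at h1 h2
  linear_combination h2 - h1

theorem per_of_coe_hecke {ℓ : ℕ} (hℓ : ℓ.Prime) (f g : CuspForm Γ 2)
    (h : (g : ℍ → ℂ) = ∑ x : HIdx N ℓ, (f : ℍ → ℂ) ∣[(2 : ℤ)] hRep N ℓ x.1) (γ : Γ) :
    per Γ g (Additive.ofMul γ) = heckeFun N Γ hℓ (fun δ => per Γ f (Additive.ofMul δ)) γ := by
  obtain ⟨F, hF⟩ := exists_isPrim f
  have h1 := hF.1
  have h2 := hF.2.1
  set G : ℍ → ℂ := fun z => ∑ x : HIdx N ℓ, F (hRep N ℓ x.1 • z) with hGdef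
  have hGi : ∀ x : HIdx N ℓ, MDiff (fun z : ℍ => F (hRep N ℓ x.1 • z)) :=
    fun x => S16.ph_mdiff_comp h1 (det_hRep_pos N ℓ x.1)
  have hG1 : MDiff G := S16.ph_mdiff_sum _ _ hGi
  have hG2 : D G = (2 * π * I : ℂ)⁻¹ • (g : ℍ → ℂ) := by
    rw [hGdef, S16.ph_D_sum _ _ hGi, h]
    funext z
    simp only [Pi.smul_apply, Finset.sum_apply, smul_eq_mul, Finset.mul_sum]
    refine Finset.sum_congr rfl fun x _ => ?_
    rw [S16.ph_D_comp h1 (det_hRep_pos N ℓ x.1), h2, ModularForm.smul_slash]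
    have hσ (c) : UpperHalfPlane.σ (hRep N ℓ x.1) c = c := by
      have := det_hRep_pos N ℓ x.1
      grind [UpperHalfPlane.σ, ContinuousAlgEquiv.refl_apply]
    simp [hσ]
  rw [per_apply_of_D Γ hG1 hG2 γ UpperHalfPlane.I]
  simp only [hGdef, heckeFun]
  have key : ∀ x : HIdx N ℓ, F (hRep N ℓ x.1 • ((γ : SL(2, ℤ)) • UpperHalfPlane.I)) =
      F (hRep N ℓ (hσ N Γ hℓ γ x).1 • UpperHalfPlane.I) +
        per Γ f (Additive.ofMul (hκ N Γ hℓ γ x)) := by
    intro x
    have e1 : hRep N ℓ x.1 • ((γ : SL(2, ℤ)) • UpperHalfPlane.I) =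
        ((hκ N Γ hℓ γ x : Γ) : SL(2, ℤ)) • (hRep N ℓ (hσ N Γ hℓ γ x).1 • UpperHalfPlane.I) := by
      have := congrArg (fun g : GL (Fin 2) ℝ => g • UpperHalfPlane.I) (hRep_mul N Γ hℓ γ x)
      simp only [mul_smul] at this
      exact this
    rw [e1, per_apply hF (hκ N Γ hℓ γ x) (hRep N ℓ (hσ N Γ hℓ γ x).1 • UpperHalfPlane.I)]
    ring
  rw [Finset.sum_congr rfl (fun x _ => key x), Finset.sum_add_distrib,
    Equiv.sum_comp (hσ N Γ hℓ γ) (fun x : HIdx N ℓ => F (hRep N ℓ x.1 • UpperHalfPlane.I))]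
  ring

theorem per_of_coe_dia (δ : Gamma0 N) (f g : CuspForm Γ 2)
    (h : (g : ℍ → ℂ) = (f : ℍ → ℂ) ∣[(2 : ℤ)] (δ : SL(2, ℤ))) (γ : Γ) :
    per Γ g (Additive.ofMul γ) = per Γ f (Additive.ofMul (cj N Γ δ γ)) := by
  obtain ⟨F, hF⟩ := exists_isPrim f
  have h1 := hF.1
  have h2 := hF.2.1
  have hG1 : MDiff (fun z : ℍ => F ((δ : SL(2, ℤ)) • z)) := ES.mdiff_comp_smul h1 _
  have hG2 : D (fun z : ℍ => F ((δ : SL(2, ℤ)) • z)) = (2 * π * I : ℂ)⁻¹ • (g : ℍ → ℂ) := by
    rw [ES.D_comp_smul h1, h2, ModularForm.SL_smul_slash, h]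
  rw [per_apply_of_D Γ hG1 hG2 γ UpperHalfPlane.I,
    per_apply hF (cj N Γ δ γ) ((δ : SL(2, ℤ)) • UpperHalfPlane.I)]
  congr 2
  rw [coe_cj, ← mul_smul, ← mul_smul]
  congr 1
  group

end analytic

/-! ### the abstract link -/

/-- intertwining is inherited by all noncommutative polynomials. -/
theorem link_intertwine {X : Type*} {A B : Type*} [AddCommGroup A] [AddCommGroup B]
    {EA EB : Type*} [Ring EA] [Algebra ℤ EA] [Ring EB] [Algebra ℤ EB]
    (actA : EA →+* AddMonoid.End A) (actB : EB →+* AddMonoid.End B)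
    (tA : X → EA) (tB : X → EB) (j : A →+ B)
    (hj : ∀ x a, j (actA (tA x) a) = actB (tB x) (j a)) (P : FreeAlgebra ℤ X) (a : A) :
    j (actA (FreeAlgebra.lift ℤ tA P) a) = actB (FreeAlgebra.lift ℤ tB P) (j a) := by
  induction P using FreeAlgebra.induction generalizing a with
  | grade0 r =>
    rw [AlgHom.commutes, AlgHom.commutes, eq_intCast (algebraMap ℤ EA) r,
      eq_intCast (algebraMap ℤ EB) r, map_intCast, map_intCast]
    change j (r • a) = r • j a
    rw [map_zsmul]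
  | grade1 x => rw [FreeAlgebra.lift_ι_apply, FreeAlgebra.lift_ι_apply, hj]
  | mul x y hx hy =>
    rw [map_mul, map_mul, map_mul, map_mul]
    change j (actA _ (actA _ a)) = actB _ (actB _ (j a))
    rw [hx, hy]
  | add x y hx hy =>
    rw [map_add, map_add, map_add, map_add]
    change j (actA _ a + actA _ a) = actB _ (j a) + actB _ (j a)
    rw [map_add, hx, hy]

/-- a convenient way to prove a `link` (any index type, any space of forms). -/
theorem link_of_period {X : Type*} {H : Type*} [AddCommGroup H] (T : X → Module.End ℤ H)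
    {S : Type*} [AddCommGroup S] [Module ℂ S] (TS : X → Module.End ℂ S)
    {Y : Type*} [AddCommGroup Y] [Module ℂ Y] (TY : X → Module.End ℂ Y)
    (ι : H →+ Y) (hι : ∀ x h, ι (T x h) = TY x (ι h))
    (J : S →+ Y) (hJ : Function.Injective J)
    (hJT : ∀ x f, J (TS x f) = TY x (J f))
    (hspan : ∀ f, J f ∈ Submodule.span ℂ (Set.range ι))
    (P : FreeAlgebra ℤ X) (hP : FreeAlgebra.lift ℤ T P = 0) :
    FreeAlgebra.lift ℤ TS P = 0 := by
  have h1 : ∀ h, ι (FreeAlgebra.lift ℤ T P h) = FreeAlgebra.lift ℤ TY P (ι h) :=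
    link_intertwine (S30.linkPeriod_toAdd ℤ H) (S30.linkPeriod_toAdd ℂ Y) T TY ι hι P
  have h2 : ∀ f, J (FreeAlgebra.lift ℤ TS P f) = FreeAlgebra.lift ℤ TY P (J f) :=
    link_intertwine (S30.linkPeriod_toAdd ℂ S) (S30.linkPeriod_toAdd ℂ Y) TS TY J hJT P
  have h3 : ∀ x ∈ Submodule.span ℂ (Set.range ι), FreeAlgebra.lift ℤ TY P x = 0 := by
    intro x hx
    induction hx using Submodule.span_induction with
    | mem x hx =>
      obtain ⟨h, rfl⟩ := hx
      rw [← h1, hP, LinearMap.zero_apply, map_zero]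
    | zero => rw [map_zero]
    | add x y _ _ hx hy => rw [map_add, hx, hy, add_zero]
    | smul c x _ hx => rw [map_smul, hx, smul_zero]
  refine LinearMap.ext fun f => ?_
  apply hJ
  rw [h2, h3 _ (hspan f), LinearMap.zero_apply, map_zero]

/-! ### the link for `Γ` -/

section link

variable (N : ℕ) [NeZero N] (Γ : Subgroup SL(2, ℤ)) [IsMid N Γ] [Γ.FiniteIndex]

/-- the Hecke operators on all functions `Γ → ℂ`. -/
noncomputable def funT (ℓ : ℕ) : Module.End ℂ (Γ → ℂ) :=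
  open scoped Classical in
  if h : ℓ.Prime ∧ ¬ ℓ ∣ N then
    { toFun := fun φ => heckeFun N Γ h.1 φ
      map_add' := fun φ ψ => heckeFun_add N Γ h.1 φ ψ
      map_smul' := fun c φ => by
        funext γ
        simp only [heckeFun, Pi.smul_apply, Finset.smul_sum, RingHom.id_apply] }
  else 0

/-- the diamond operators on all functions `Γ → ℂ`. -/
noncomputable def funD (d : (ZMod N)ˣ) : Module.End ℂ (Γ → ℂ) where
  toFun := fun φ => diaFun N Γ ⟨rep N d, rep_mem N d⟩ φ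
  map_add' := fun _ _ => rfl
  map_smul' := fun _ _ => rfl

/-- the period map as an additive map to functions. -/
noncomputable def latJ : CuspForm Γ 2 →+ (Γ → ℂ) where
  toFun f := fun γ => per Γ f (Additive.ofMul γ)
  map_zero' := by
    funext γ
    have := (perL Γ).map_zero
    simp only [perL_apply] at this
    rw [this]
    rfl
  map_add' f g := by
    funext γ
    rw [per_add]
    rfl

/-- **the link**: every relation between the Hecke and diamond operators on the lattice holds on `S₂(Γ)`. -/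
theorem lat_link_of (TS : ℕ → Module.End ℂ (CuspForm Γ 2))
    (DS : (ZMod N)ˣ → Module.End ℂ (CuspForm Γ 2))
    (hTS : ∀ ℓ : ℕ, ℓ.Prime → ¬ ℓ ∣ N → ∀ f : CuspForm Γ 2,
      (TS ℓ f : UpperHalfPlane → ℂ) =
        ∑ x : HIdx N ℓ, (f : UpperHalfPlane → ℂ) ∣[(2 : ℤ)] hRep N ℓ x.1)
    (hTS0 : ∀ ℓ : ℕ, ¬ (ℓ.Prime ∧ ¬ ℓ ∣ N) → TS ℓ = 0)
    (hDS : ∀ (d : (ZMod N)ˣ) (f : CuspForm Γ 2),
      (DS d f : UpperHalfPlane → ℂ) = (f : UpperHalfPlane → ℂ) ∣[(2 : ℤ)] rep N d)
    (P : FreeAlgebra ℤ (ℕ ⊕ (ZMod N)ˣ))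
    (hP : FreeAlgebra.lift ℤ (Sum.elim (latT N Γ) (latD N Γ)) P = 0) :
    FreeAlgebra.lift ℤ (Sum.elim TS DS) P = 0 := by
  refine link_of_period (Sum.elim (latT N Γ) (latD N Γ)) (Sum.elim TS DS)
    (Sum.elim (funT N Γ) (funD N Γ)) (latι Γ) ?_ (latJ Γ) ?_ ?_ ?_ P hP
  · rintro (ℓ | d) φ
    · simp only [Sum.elim_inl]
      by_cases h : ℓ.Prime ∧ ¬ ℓ ∣ N
      · have h2 : funT N Γ ℓ (latι Γ φ) = heckeFun N Γ h.1 (latι Γ φ) := by
          unfold funT
          rw [dif_pos h]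
          rfl
        rw [h2]
        funext γ
        change (((latT N Γ ℓ φ).1 (Additive.ofMul γ) : ℤ) : ℂ) = _
        rw [latT_apply N Γ h.1 h.2]
        exact (heckeFun_comp N Γ h.1 (Int.castAddHom ℂ) (fun δ => φ.1 (Additive.ofMul δ)) γ).symm
      · have h1 : latT N Γ ℓ = 0 := dif_neg h
        have h2 : funT N Γ ℓ = 0 := dif_neg h
        rw [h1, h2]
        simp
    · rfl
  · rw [injective_iff_map_eq_zero]
    intro f hf
    apply eq_zero_of_per_eq_zero f
    refine AddMonoidHom.ext fun γ => ?_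
    exact congrFun hf (Additive.toMul γ)
  · rintro (ℓ | d) f
    · simp only [Sum.elim_inl]
      by_cases h : ℓ.Prime ∧ ¬ ℓ ∣ N
      · have h2 : funT N Γ ℓ (latJ Γ f) = heckeFun N Γ h.1 (latJ Γ f) := by
          unfold funT
          rw [dif_pos h]
          rfl
        rw [h2]
        funext γ
        exact per_of_coe_hecke N Γ h.1 f (TS ℓ f) (hTS ℓ h.1 h.2 f) γ
      · have h2 : funT N Γ ℓ = 0 := dif_neg h
        rw [hTS0 ℓ h, h2]
        simp
    · simp only [Sum.elim_inr]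
      funext γ
      exact per_of_coe_dia N Γ ⟨rep N d, rep_mem N d⟩ f (DS d f) (hDS d f) γ
  · intro f
    exact span_of_parabolic Γ (per Γ f) (per_parabolic f)

end link

end Fermat.Agent.S48.PER1
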